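import Fermat.Agent.Igusa.CuspUnit
import Fermat.Agent.Wp.QExp
import Fermat.Agent.Mazur.Moduli.Permute
import Mathlib.NumberTheory.ModularForms.NormTrace

/-!
# The modular unit as a product of values of `℘'`

`Δ(pτ) ∏_{k=1}^{p-1} ℘'(k/p; τ)⁴ = (2π)^{12(p-1)} p^{-12} Δ(τ)^p`.

See `unitRatio_eq_const` and `inv_uFun_eq`.
-/

noncomputable section

open UpperHalfPlane hiding I
open Filter Topology Complex Finset CongruenceSubgroup Function
open scoped PeriodPair Real MatrixGroups Manifold ModularForm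

namespace Fermat.Agent.Mazur.Moduli

open Fermat.Agent.Wp Fermat.Agent.ModFun Fermat.Agent.Igusa

/-! ## The ratio and its invariance -/

/-- `∏_{k=1}^{p-1} ℘'(k/p; τ)⁴`. -/
def divProd (p : ℕ) (τ : ℍ) : ℂ :=
  ∏ k ∈ Ico 1 p, ℘'[pairTau τ] ((k : ℂ) / p) ^ 4

/-- `Δ(pτ) ∏ ℘'(k/p; τ)⁴ / Δ(τ)^p`. -/
def unitRatio (p : ℕ) [NeZero p] (τ : ℍ) : ℂ :=
  uFun p τ * divProd p τ / ModularForm.discriminant τ ^ (p - 1)

variable {p : ℕ}

theorem divProd_smul (g : SL(2, ℤ)) (τ : ℍ) :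
    divProd p (g • τ) = denom g τ ^ (12 * (p - 1)) *
      ∏ k ∈ Ico 1 p, ℘'[pairTau τ] (((g 1 0 : ℂ) * τ + g 1 1) * ((k : ℂ) / p)) ^ 4 := by
  have hμ : ((g 1 0 : ℂ) * τ + g 1 1) ≠ 0 := ModularGroup.denom_apply g τ ▸ denom_ne_zero _ τ
  rw [divProd, show 12 * (p - 1) = 12 * (Ico 1 p).card by simp, pow_mul, ← prod_const,
    ← prod_mul_distrib]
  refine prod_congr rfl fun k _ => ?_
  rw [derivWeierstrassP_mul hμ (mem_pairTau_smul g τ), coe_denom]
  field_simp

theorem derivWeierstrassP_div_congr (τ : ℍ) {z : ℂ} {k : ℕ} (m n : ℤ)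
    (h : z = (k : ℂ) / p + m * τ + n) : ℘'[pairTau τ] z = ℘'[pairTau τ] ((k : ℂ) / p) := by
  rw [h, derivWeierstrassP_add_of_mem (intCast_mem_pairTau τ n),
    derivWeierstrassP_add_of_mem (intCast_mul_coe_mem_pairTau τ m)]

theorem divProd_smul_of_mem (hp : p.Prime) {g : SL(2, ℤ)} (hg : g ∈ Gamma0 p) (τ : ℍ) :
    divProd p (g • τ) = denom g τ ^ (12 * (p - 1)) * divProd p τ := by
  rw [Gamma0_mem, ZMod.intCast_zmod_eq_zero_iff_dvd] at hg
  obtain ⟨c, hc⟩ := hg
  have hd : ¬(p : ℤ) ∣ g 1 1 := by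
    rintro ⟨e, he⟩
    have hdet : g 0 0 * g 1 1 - g 0 1 * g 1 0 = 1 := by rw [← Matrix.det_fin_two]; exact g.2
    have h1 : (p : ℤ) ∣ 1 := ⟨g 0 0 * e - g 0 1 * c, by
      rw [hc, he] at hdet; linear_combination -hdet⟩
    exact hp.not_dvd_one (by exact_mod_cast h1)
  rw [divProd_smul, divProd]
  refine congrArg (_ * ·) ?_
  rw [← prod_resMul hp hd (fun k => ℘'[pairTau τ] ((k : ℂ) / p) ^ 4)]
  refine prod_congr rfl fun k _ => ?_
  obtain ⟨n, hn⟩ := exists_eq_resMul_add hp.ne_zero (g 1 1) k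
  have hnC : (k : ℂ) * g 1 1 = (resMul p (g 1 1) k : ℂ) + n * p := by exact_mod_cast hn
  have hp0 : (p : ℂ) ≠ 0 := Nat.cast_ne_zero.mpr hp.ne_zero
  rw [derivWeierstrassP_div_congr τ (k := resMul p (g 1 1) k) ((k : ℤ) * c) n]
  rw [hc]
  field_simp
  push_cast
  linear_combination hnC

variable [NeZero p]

theorem unitRatio_smul_of_mem (hp : p.Prime) {g : SL(2, ℤ)} (hg : g ∈ Gamma0 p) (τ : ℍ) :
    unitRatio p (g • τ) = unitRatio p τ := by
  have hd : denom g (τ : ℂ) ≠ 0 := denom_ne_zero _ τ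
  rw [unitRatio, unitRatio, uFun_invariant (dvd_refl p) hg, divProd_smul_of_mem hp hg,
    Igusa.discriminant_smul, mul_pow, ← pow_mul]
  field_simp

theorem mdifferentiable_unitRatio : MDiff (unitRatio p) := by
  have h1 : MDiff (uFun p) := by simpa using (uFun_comp_mem p 1).1
  have h2 : MDiff (divProd p) := by
    rw [UpperHalfPlane.mdifferentiable_iff]
    have h := fun k : ℕ => UpperHalfPlane.mdifferentiable_iff.mp
      (mdifferentiable_derivWeierstrassP_real ((k : ℝ) / p))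
    have h' := DifferentiableOn.fun_finsetProd (s := {z : ℂ | 0 < z.im}) (u := Ico 1 p)
      fun k _ => (h k).fun_pow 4
    refine h'.congr fun z _ => ?_
    simp [divProd]
  rw [UpperHalfPlane.mdifferentiable_iff] at *
  have h3 := (h1.fun_mul h2).fun_div
    ((UpperHalfPlane.mdifferentiable_iff.mp mdifferentiable_discriminant).fun_pow (p - 1))
    fun z _ => pow_ne_zero _ (ModularForm.discriminant_ne_zero _)
  exact h3.congr fun z _ => rfl

/-! ## The behaviour at the cusps -/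

theorem tendsto_discriminant_div :
    Tendsto (fun τ : ℍ => ModularForm.discriminant τ / Periodic.qParam 1 τ) atImInfty (𝓝 1) := by
  refine ModularForm.tendsto_atImInfty_tprod_one_sub_eta_q_pow.congr fun τ => ?_
  rw [ModularForm.discriminant_eq_q_prod]
  rw [mul_div_assoc, mul_div_left_comm, mul_right_eq_self₀.mpr]
  exact Or.inl (div_self (Periodic.qParam_ne_zero _))

theorem tendsto_scaleH_atImInfty : Tendsto (scaleH p) atImInfty atImInfty := by
  rw [atImInfty, tendsto_comap_iff]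
  have h : Tendsto (fun τ : ℍ => (p : ℝ) * τ.im) atImInfty atTop :=
    Tendsto.const_mul_atTop (by exact_mod_cast Nat.pos_of_ne_zero (NeZero.ne p)) tendsto_comap
  exact h.congr fun τ => by simp [← UpperHalfPlane.coe_im, coe_scaleH]

theorem tendsto_disc_ratio :
    Tendsto (fun τ : ℍ => ModularForm.discriminant (scaleH p τ) / ModularForm.discriminant τ ^ p)
      atImInfty (𝓝 1) := by
  have h := ((tendsto_discriminant_div.comp (tendsto_scaleH_atImInfty (p := p))).div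
    (tendsto_discriminant_div.pow p) (by simp))
  rw [one_pow, div_one] at h
  refine h.congr fun τ => ?_
  have e : Periodic.qParam 1 τ ^ p = Periodic.qParam 1 (scaleH p τ) := by
    rw [Periodic.qParam, Periodic.qParam, ← Complex.exp_nat_mul, coe_scaleH]
    push_cast; ring_nf
  simp only [Pi.div_apply, comp_apply, div_pow, e]
  have := Periodic.qParam_ne_zero (h := 1) (scaleH p τ : ℂ)
  field_simp

theorem unitRatio_eq (hp : 1 ≤ p) (τ : ℍ) : unitRatio p τ =
    ModularForm.discriminant (scaleH p τ) / ModularForm.discriminant τ ^ p * divProd p τ := by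
  rw [unitRatio, uFun]
  have := ModularForm.discriminant_ne_zero τ
  rw [show ModularForm.discriminant τ ^ p
      = ModularForm.discriminant τ ^ (p - 1) * ModularForm.discriminant τ by
    rw [← pow_succ, Nat.sub_add_cancel hp]]
  field_simp

omit [NeZero p] in
theorem tendsto_divProd (hp : p.Prime) (hp2 : p ≠ 2) :
    Tendsto (divProd p) atImInfty (𝓝 ((2 * π) ^ (12 * (p - 1)) / (p : ℂ) ^ 12)) := by
  set ζ : ℂ := expTwoPi (1 / p)
  have hp0 : (p : ℂ) ≠ 0 := Nat.cast_ne_zero.mpr hp.ne_zero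
  have hζ : IsPrimitiveRoot ζ p := by
    have := Complex.isPrimitiveRoot_exp p hp.ne_zero
    rwa [show ζ = cexp (2 * π * Complex.I / p) by simp [ζ, expTwoPi, div_eq_mul_inv]]
  have hk : ∀ k ∈ Ico 1 p, ∀ n : ℤ, ((k : ℝ) / p : ℝ) + (n : ℂ) ≠ 0 := by
    intro k hk n h
    rw [mem_Ico] at hk
    push_cast at h
    field_simp at h
    have h' : (k : ℤ) + p * n = 0 := by exact_mod_cast h
    rcases lt_trichotomy n 0 with h0 | h0 | h0
    · nlinarith
    · subst h0; omega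
    · nlinarith
  -- Each factor tends to an expression in `ζ ^ k`.
  have hlim : ∀ k ∈ Ico 1 p, Tendsto (fun τ : ℍ => ℘'[pairTau τ] ((k : ℂ) / p) ^ 4) atImInfty
      (𝓝 ((2 * π) ^ 12 * ((ζ ^ k) ^ 4 * (1 + ζ ^ k) ^ 4 / ((1 - ζ ^ k) ^ 3) ^ 4))) := by
    intro k hk'
    obtain ⟨K, hK⟩ := norm_derivWeierstrassP_real_sub_le ((k : ℝ) / p)
    have ht : Tendsto (fun τ : ℍ => ℘'[pairTau τ] (((k : ℝ) / p : ℝ) : ℂ)
        + 2 * rowSum (((k : ℝ) / p : ℝ) : ℂ)) atImInfty (𝓝 0) := by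
      refine squeeze_zero_norm' ?_ (a := fun τ : ℍ => K * Real.exp (-(2 * π * τ.im))) ?_
      · filter_upwards [(tendsto_comap : Tendsto UpperHalfPlane.im atImInfty
          atTop).eventually_ge_atTop 1]
          with τ hτ using hK τ hτ
      · have : Tendsto (fun τ : ℍ => -(2 * π * τ.im)) atImInfty atBot :=
          tendsto_neg_atTop_atBot.comp (Tendsto.const_mul_atTop Real.two_pi_pos tendsto_comap)
        simpa using (Real.tendsto_exp_atBot.comp this).const_mul K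
    have h2 := (ht.sub_const (2 * rowSum (((k : ℝ) / p : ℝ) : ℂ))).pow 4
    simp only [add_sub_cancel_right, zero_sub] at h2
    push_cast at h2
    convert! h2 using 2
    have hpush := hk k hk'
    push_cast at hpush
    rw [rowSum_eq hpush, rowClosed,
      show expTwoPi ((k : ℂ) / p) = ζ ^ k by
        simp only [ζ, expTwoPi, ← Complex.exp_nat_mul]; ring_nf]
    have hI : (-2 * π * Complex.I) ^ 3 = Complex.I * (2 * π) ^ 3 := by
      linear_combination (-(8 * (π : ℂ) ^ 3) * Complex.I) * Complex.I_sq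
    rw [hI]
    ring_nf
    simp [Complex.I_pow_four]
    ring
  -- The products of these expressions are evaluated by the cyclotomic identities.
  have h := tendsto_finsetProd (Ico 1 p) hlim
  refine h.congr' (Eventually.of_forall fun τ => rfl) |>.trans (le_of_eq ?_)
  congr 1
  obtain ⟨h1, h2, h3⟩ := prod_roots hp hp2 hζ
  rw [prod_mul_distrib, prod_const, Nat.card_Ico, prod_div_distrib, prod_mul_distrib, h1,
    prod_pow, h3 hp0, ← pow_mul, prod_congr rfl (fun k _ => (pow_mul (1 - ζ ^ k) 3 4).symm),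
    prod_pow, h2]
  ring

/-- Off the cusp `∞` the factors of `divProd` are bounded by exponentials. -/
private theorem exists_norm_factor_le {e : ℕ} (hp : e.Prime) (g : SL(2, ℤ))
    (hc : ¬(e : ℤ) ∣ g 1 0) : ∃ K : ℕ → ℝ, ∀ k ∈ Ico 1 e, ∀ τ : ℍ, 1 ≤ τ.im →
      ‖℘'[pairTau τ] (((g 1 0 : ℂ) * τ + g 1 1) * ((k : ℂ) / e))‖ ≤
        |K k| * Real.exp (-(2 * π * (((min (resMul e (g 1 0) k) (e - resMul e (g 1 0) k) : ℕ) : ℝ)
          / e * τ.im))) := by
  have hdec : ∀ k ∈ Ico 1 e, ∃ K : ℝ, ∀ (b : ℝ) (τ : ℍ), 1 ≤ τ.im →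
      ‖℘'[pairTau τ] (((resMul e (g 1 0) k : ℝ) / e : ℝ) * τ + b : ℂ)‖ ≤
        K * Real.exp (-(2 * π * (min ((resMul e (g 1 0) k : ℝ) / e)
          (1 - (resMul e (g 1 0) k : ℝ) / e) * τ.im))) := by
    intro k hk
    have hr := mem_Ico.mp (resMul_mem hp hc hk)
    have he0 : (0 : ℝ) < e := by exact_mod_cast hp.pos
    exact norm_derivWeierstrassP_mul_le (div_pos (by exact_mod_cast hr.1) he0)
      ((div_lt_one he0).mpr (by exact_mod_cast hr.2))
  choose! K hK using hdec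
  refine ⟨K, fun k hk τ hτ => ?_⟩
  set r := resMul e (g 1 0) k with hr
  have hr2 : r ≤ e := (mem_Ico.mp (resMul_mem hp hc hk)).2.le
  obtain ⟨n, hn⟩ := exists_eq_resMul_add hp.ne_zero (g 1 0) k
  have hnC : (k : ℂ) * g 1 0 = (r : ℂ) + n * e := by exact_mod_cast hn
  have he0 : (e : ℂ) ≠ 0 := Nat.cast_ne_zero.mpr hp.ne_zero
  have e1 : ((g 1 0 : ℂ) * τ + g 1 1) * ((k : ℂ) / e)
      = (((r : ℝ) / e : ℝ) : ℂ) * τ + (((k : ℝ) * g 1 1 / e : ℝ) : ℂ) + n * τ := by
    push_cast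
    field_simp
    linear_combination (τ : ℂ) * hnC
  rw [e1, derivWeierstrassP_add_of_mem (intCast_mul_coe_mem_pairTau τ n)]
  refine (hK k hk _ τ hτ).trans ?_
  have hmin : min ((r : ℝ) / e) (1 - (r : ℝ) / e) = ((min r (e - r) : ℕ) : ℝ) / e := by
    have he' : (0 : ℝ) < e := by exact_mod_cast hp.pos
    rw [Nat.cast_min, Nat.cast_sub hr2, one_sub_div he'.ne',
      min_div_div_right he'.le]
  rw [hmin]
  exact mul_le_mul_of_nonneg_right (le_abs_self _) (Real.exp_pos _).le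

/-- `unitRatio` is bounded at every cusp. -/
theorem isBounded_unitRatio_smul (hp : p.Prime) (hp2 : p ≠ 2) (g : SL(2, ℤ)) :
    IsBoundedAtImInfty fun τ => unitRatio p (g • τ) := by
  by_cases hg : g ∈ Gamma0 p
  · refine Asymptotics.IsBigO.congr_left ?_ (f₁ := unitRatio p)
      (fun τ => (unitRatio_smul_of_mem hp hg τ).symm)
    refine Filter.Tendsto.isBigO_one ℝ (c := 1 * ((2 * π) ^ (12 * (p - 1)) / (p : ℂ) ^ 12)) ?_
    exact (tendsto_disc_ratio.mul (tendsto_divProd hp hp2)).congr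
      fun τ => (unitRatio_eq hp.one_le τ).symm
  -- the other cusp
  have hc : ¬(p : ℤ) ∣ g 1 0 := fun h => hg (by
    rw [Gamma0_mem, ZMod.intCast_zmod_eq_zero_iff_dvd]; exact h)
  obtain ⟨δ, a, b, e, ha, he, hae, h1, h2, h3, h4⟩ := exists_hermite p g
  have ha1 : a = 1 := by
    have h := gcd_col_eq h1 h3
    rw [← h, Int.gcd_comm, ← Int.isCoprime_iff_gcd_eq_one,
      (Nat.prime_iff_prime_int.mp hp).irreducible.coprime_iff_not_dvd]
    exact hc
  subst ha1
  rw [one_mul] at hae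
  subst hae
  obtain ⟨C, hC⟩ := ModFun.isBigO_discriminant_exp.bound
  obtain ⟨D, hD⟩ := ModularForm.exp_isBigO_discriminant.bound
  obtain ⟨K, hK⟩ := exists_norm_factor_le hp g hc
  refine Asymptotics.IsBigO.of_bound
    (|C| * |D| ^ e * ((e : ℝ) ^ 12)⁻¹ * ∏ k ∈ Ico 1 e, |K k| ^ 4) ?_
  have hE : ∀ᶠ τ : ℍ in atImInfty, ‖ModularForm.discriminant (affine 1 b e τ)‖
      ≤ C * ‖Real.exp (-2 * π * (affine 1 b e τ).im)‖ := by
    refine (Filter.Tendsto.eventually ?_ hC)
    rw [atImInfty, tendsto_comap_iff]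
    have : Tendsto (fun τ : ℍ => τ.im / e) atImInfty atTop :=
      Tendsto.atTop_div_const (by exact_mod_cast hp.pos) tendsto_comap
    exact this.congr fun τ => by rw [comp_apply, im_affine]; simp
  filter_upwards [hE, hD,
    (tendsto_comap : Tendsto UpperHalfPlane.im atImInfty atTop).eventually_ge_atTop 1]
    with τ hτC hτD hτ
  simp only [Pi.one_apply, norm_one, mul_one]
  rw [unitRatio, uFun_smul_of_hermite h1 h2 h3 h4, divProd_smul, Igusa.discriminant_smul]
  have hd : denom g (τ : ℂ) ≠ 0 := denom_ne_zero _ τ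
  have hsum : (4 : ℝ) * ∑ k ∈ Ico 1 e,
      ((min (resMul e (g 1 0) k) (e - resMul e (g 1 0) k) : ℕ) : ℝ) = (e : ℝ) ^ 2 - 1 := by
    rw [sum_resMul hp hc (fun k => ((min k (e - k) : ℕ) : ℝ))]
    obtain ⟨m, rfl⟩ := hp.odd_of_ne_two hp2
    have h := congrArg (Nat.cast (R := ℝ)) (four_mul_sum_min m)
    push_cast at h ⊢
    linarith
  have hD' : Real.exp (-2 * π * τ.im) ≤ |D| * ‖ModularForm.discriminant τ‖ := by
    rw [Real.norm_of_nonneg (Real.exp_pos _).le] at hτD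
    exact hτD.trans (mul_le_mul_of_nonneg_right (le_abs_self _) (norm_nonneg _))
  have hC' : ‖ModularForm.discriminant (affine 1 b e τ)‖
      ≤ |C| * Real.exp (-2 * π * (τ.im / e)) := by
    rw [Real.norm_of_nonneg (Real.exp_pos _).le, im_affine, Nat.cast_one, one_mul] at hτC
    exact hτC.trans (mul_le_mul_of_nonneg_right (le_abs_self _) (Real.exp_pos _).le)
  rw [show ((e : ℂ) ^ 12)⁻¹ * ModularForm.discriminant (affine 1 b e τ)
        * (ModularForm.discriminant τ)⁻¹ *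
        (denom g (τ : ℂ) ^ (12 * (e - 1)) * ∏ k ∈ Ico 1 e,
          ℘'[pairTau τ] (((g 1 0 : ℂ) * τ + g 1 1) * ((k : ℂ) / e)) ^ 4)
        / (denom g (τ : ℂ) ^ 12 * ModularForm.discriminant τ) ^ (e - 1)
      = ((e : ℂ) ^ 12)⁻¹ * ModularForm.discriminant (affine 1 b e τ) * (∏ k ∈ Ico 1 e,
          ℘'[pairTau τ] (((g 1 0 : ℂ) * τ + g 1 1) * ((k : ℂ) / e)) ^ 4)
        / ModularForm.discriminant τ ^ e from by
    rw [show ModularForm.discriminant τ ^ e
        = ModularForm.discriminant τ ^ (e - 1) * ModularForm.discriminant τ by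
      rw [← pow_succ, Nat.sub_add_cancel hp.one_le], mul_pow, ← pow_mul]
    have := ModularForm.discriminant_ne_zero τ
    field_simp]
  have hΔ : 0 < ‖ModularForm.discriminant τ‖ :=
    norm_pos_iff.mpr (ModularForm.discriminant_ne_zero τ)
  rw [norm_div, norm_mul, norm_mul, norm_inv, norm_pow, norm_pow, norm_prod, Complex.norm_natCast,
    div_le_iff₀ (pow_pos hΔ e)]
  simp only [norm_pow]
  calc ((e : ℝ) ^ 12)⁻¹ * ‖ModularForm.discriminant (affine 1 b e τ)‖
        * ∏ k ∈ Ico 1 e, ‖℘'[pairTau τ] (((g 1 0 : ℂ) * τ + g 1 1) * ((k : ℂ) / e))‖ ^ 4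
      ≤ ((e : ℝ) ^ 12)⁻¹ * (|C| * Real.exp (-2 * π * (τ.im / e)))
        * ∏ k ∈ Ico 1 e, (|K k| * Real.exp (-(2 * π *
          (((min (resMul e (g 1 0) k) (e - resMul e (g 1 0) k) : ℕ) : ℝ) / e * τ.im)))) ^ 4 := by
        refine mul_le_mul (mul_le_mul_of_nonneg_left hC' (by positivity)) ?_
          (by positivity) (by positivity)
        exact prod_le_prod (fun k _ => by positivity)
          fun k hk => pow_le_pow_left₀ (norm_nonneg _) (hK k hk τ hτ) 4
    _ = ((e : ℝ) ^ 12)⁻¹ * |C| * (∏ k ∈ Ico 1 e, |K k| ^ 4)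
        * Real.exp (-2 * π * τ.im) ^ e := by
        simp only [mul_pow, ← Real.exp_nat_mul, prod_mul_distrib, ← Real.exp_sum]
        rw [show (e : ℝ) * (-2 * π * τ.im) = -2 * π * (τ.im / e) + ∑ k ∈ Ico 1 e, ((4 : ℕ) : ℝ)
            * -(2 * π * (((min (resMul e (g 1 0) k) (e - resMul e (g 1 0) k) : ℕ) : ℝ)
              / e * τ.im)) from ?_, Real.exp_add]
        · ring
        · have he' : (e : ℝ) ≠ 0 := Nat.cast_ne_zero.mpr hp.ne_zero
          rw [← mul_sum, ← neg_mul_eq_neg_mul, sum_neg_distrib, ← mul_sum, ← sum_mul, ← sum_div]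
          field_simp
          push_cast at hsum ⊢
          linear_combination hsum
    _ ≤ ((e : ℝ) ^ 12)⁻¹ * |C| * (∏ k ∈ Ico 1 e, |K k| ^ 4)
        * (|D| * ‖ModularForm.discriminant τ‖) ^ e := by gcongr
    _ = |C| * |D| ^ e * ((e : ℝ) ^ 12)⁻¹ * (∏ k ∈ Ico 1 e, |K k| ^ 4)
        * ‖ModularForm.discriminant τ‖ ^ e := by ring

/-! ## The identity -/

/-- `unitRatio` as a modular form of weight `0`. -/
def unitForm (hp : p.Prime) (hp2 : p ≠ 2) :
    ModularForm ((Gamma0 p : Subgroup SL(2, ℤ)) : Subgroup (GL (Fin 2) ℝ)) 0 where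
  toFun := unitRatio p
  slash_action_eq' := by
    rintro _ ⟨γ, hγ, rfl⟩
    funext τ
    change (unitRatio p ∣[(0 : ℤ)] γ) τ = unitRatio p τ
    rw [ModularForm.SL_slash_apply, neg_zero, zpow_zero, mul_one]
    exact unitRatio_smul_of_mem hp hγ τ
  holo' := mdifferentiable_unitRatio
  bdd_at_cusps' {c} hc := by
    rw [Subgroup.IsArithmetic.isCusp_iff_isCusp_SL2Z] at hc
    rw [OnePoint.isBoundedAt_iff_forall_SL2Z hc]
    intro γ _
    refine (isBounded_unitRatio_smul hp hp2 γ).congr_left (f₁ := fun τ => unitRatio p (γ • τ)) ?_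
    intro τ
    rw [ModularForm.SL_slash_apply]
    simp

theorem unitRatio_eq_const (hp : p.Prime) (hp2 : p ≠ 2) (τ : ℍ) :
    unitRatio p τ = (2 * π) ^ (12 * (p - 1)) / (p : ℂ) ^ 12 := by
  obtain ⟨c, hc⟩ := ModularForm.eq_const_of_weight_zero (unitForm hp hp2)
  have hc' : ∀ z, unitRatio p z = c := fun z => congrFun hc z
  have h := (tendsto_disc_ratio.mul (tendsto_divProd hp hp2)).congr
    fun z => ((unitRatio_eq hp.one_le z).symm.trans (hc' z))
  rw [one_mul] at h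
  rw [hc' τ]
  exact tendsto_nhds_unique tendsto_const_nhds h

/-- `Δ(τ)/Δ(pτ) = p¹² (2π)^{-12(p-1)} ∏ ℘'(k/p; τ)⁴ / Δ(τ)^{p-1}`. -/
theorem inv_uFun_eq (hp : p.Prime) (hp2 : p ≠ 2) (τ : ℍ) :
    (uFun p τ)⁻¹ = (p : ℂ) ^ 12 / (2 * π) ^ (12 * (p - 1)) * divProd p τ
      / ModularForm.discriminant τ ^ (p - 1) := by
  have h := unitRatio_eq_const hp hp2 τ
  rw [unitRatio] at h
  have h1 := uFun_ne_zero p τ
  have h2 := ModularForm.discriminant_ne_zero τ
  have h3 : (2 * π : ℂ) ≠ 0 := by simp [Real.pi_ne_zero]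
  have h4 : (p : ℂ) ≠ 0 := Nat.cast_ne_zero.mpr hp.ne_zero
  field_simp at h ⊢
  linear_combination -h

end Fermat.Agent.Mazur.Moduli
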